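import Fermat.Agent.CFT.Bridge.Symbol
import Fermat.Agent.CFT.Pair
import Fermat.Agent.PT.GlobalInputs

/-!
# The global inputs of the duality theory, from the two inequalities

Proof of `PT.GlobalInputs` for odd primes: the Hasse norm theorem and pairs of primes, translated
into statements about symbols.
-/

noncomputable section

namespace Fermat.Agent.CFT.Bridge

open NumberField IsDedekindDomain WithZero IntermediateField
open Fermat.Agent.PT (Gam LG Cyc Chi Plc nP cyc LocZero placesOver stab embU cycLoc GlobalInputs)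

local notation "Qb" => AlgebraicClosure ℚ

variable {p : ℕ} [Fact p.Prime] {H : Subgroup Gam}

theorem locZero_of_kum_eq_zero (hμ : (cyc p).MuFix H) (a : ↥(Cyc.rootU p H))
    {b : ↥(Cyc.rootU p H)} (hb : ∀ g, (cyc p).kum H b g = 0) (v : Plc H) :
    LocZero v (Cyc.sym H hμ a b) := by
  rw [LocZero, Cyc.sym_eq_zero_of_right hμ a hb, map_zero]

/-- The Hasse norm theorem, for symbols. -/
theorem sym_eq_zero_of_local (hodd : p ≠ 2) (hH : H ∈ LG) (hμ : (cyc p).MuFix H)
    (a b : ↥(Cyc.rootU p H)) (h : ∀ v : Plc H, LocZero v (Cyc.sym H hμ a b)) :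
    Cyc.sym H hμ a b = 0 := by
  by_cases hb : ∀ g, (cyc p).kum H b g = 0
  · exact Cyc.sym_eq_zero_of_right hμ a hb
  push Not at hb
  have := numberField_fixedField hH
  obtain ⟨ζ, hζ, -⟩ := exists_primitiveRoot hμ
  have := isTotallyComplex_fixedField hμ hodd
  have hnp := powK_notPow hμ hb
  have := isGalois_radField hζ hnp
  have hR := isRad_radField hζ hnp
  obtain ⟨y, hy⟩ := exists_norm_of_locNorm hζ hR.deg fun P => by
    obtain ⟨v, rfl⟩ := prm_surjective hH P
    exact (locZero_sym_iff hodd hH hμ hR hb v a).1 (h v)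
  set φ : RadField ↥(fixedField H) p (powK b) →ₐ[↥(fixedField H)] Qb := IsAlgClosed.lift
  set X := Cyc.chiOf hμ b.2 hb
  refine (Cyc.sym_eq_zero_iff hμ X (fun _ => rfl) a).2
    ⟨Units.mk0 (φ (y : RadField ↥(fixedField H) p (powK b))) (by simp), fun g hg => Units.ext ?_,
      Units.ext ?_⟩
  · exact apply_emb_of_kum_eq_zero hμ hR φ hb hg _
  · rw [Chi.nrm, Units.coe_prod, ← coe_powK, ← hy, coe_normU,
      coe_norm_eq_prod hμ hR φ (σ := X.σ) (fun h0 => one_ne_zero (α := ZMod p) (X.χ_σ ▸ h0))]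
    exact Finset.prod_congr rfl fun i _ => rfl

/-- Two places with nontrivial symbols carry a symbol trivial everywhere else. -/
theorem exists_pair (hodd : p ≠ 2) (hH : H ∈ LG) (hμ : (cyc p).MuFix H)
    (b : ↥(Cyc.rootU p H)) (v w : Plc H) (hvw : v ≠ w)
    (hv : ∃ a, ¬ LocZero v (Cyc.sym H hμ a b)) (hw : ∃ a, ¬ LocZero w (Cyc.sym H hμ a b)) :
    ∃ a, (∀ u, u ≠ v → u ≠ w → LocZero u (Cyc.sym H hμ a b)) ∧
      ¬ (LocZero v (Cyc.sym H hμ a b) ∧ LocZero w (Cyc.sym H hμ a b)) := by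
  have hb : ∃ g, (cyc p).kum H b g ≠ 0 := by
    by_contra! hb
    obtain ⟨a, ha⟩ := hv
    exact ha (locZero_of_kum_eq_zero hμ a hb v)
  have := numberField_fixedField hH
  obtain ⟨ζ, hζ, -⟩ := exists_primitiveRoot hμ
  have := isTotallyComplex_fixedField hμ hodd
  have hnp := powK_notPow hμ hb
  have := isGalois_radField hζ hnp
  have hR := isRad_radField hζ hnp
  have hns : ∀ u : Plc H, (∃ a, ¬ LocZero u (Cyc.sym H hμ a b)) →
      ¬ IsSplit (RadField ↥(fixedField H) p (powK b)) (prm u) := fun u ⟨a, ha⟩ hs => ha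
    ((locZero_sym_iff hodd hH hμ hR hb u a).2 (by
      rw [locNorm_eq_top_of_split hR.deg hs]; exact Subgroup.mem_top _))
  obtain ⟨x, hx, hx'⟩ := exists_locNorm_pair hζ hR.deg ((prm_injective hH).ne hvw)
    (hns v hv) (hns w hw)
  obtain ⟨a, rfl⟩ := exists_powK_eq (p := p) x
  refine ⟨a, fun u huv huw => (locZero_sym_iff hodd hH hμ hR hb u a).2
    (hx _ ((prm_injective hH).ne huv) ((prm_injective hH).ne huw)), ?_⟩
  rwa [locZero_sym_iff hodd hH hμ hR hb, locZero_sym_iff hodd hH hμ hR hb]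

/-- Symbols of units vanish at places away from `p`. -/
theorem locZero_units (hodd : p ≠ 2) (hH : H ∈ LG) (hμ : (cyc p).MuFix H) {v : Plc H}
    (hvp : (v.1 : ℕ) ≠ p) (a b : ↥(Cyc.rootU p H))
    (ha : nP v (((a : Qbˣ) ^ p : Qbˣ) : Qb) = 1) (hb1 : nP v (((b : Qbˣ) ^ p : Qbˣ) : Qb) = 1) :
    LocZero v (Cyc.sym H hμ a b) := by
  by_cases hb : ∀ g, (cyc p).kum H b g = 0
  · exact locZero_of_kum_eq_zero hμ a hb v
  push Not at hb
  have := numberField_fixedField hH
  obtain ⟨ζ, hζ, -⟩ := exists_primitiveRoot hμ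
  have hnp := powK_notPow hμ hb
  have := isGalois_radField hζ hnp
  have hR := isRad_radField hζ hnp
  rw [← coe_powK, nP_eq_one_iff] at ha hb1
  refine (locZero_sym_iff hodd hH hμ hR hb v a).2 ?_
  obtain ⟨w, hw⟩ := exists_below_eq (L := RadField ↥(fixedField H) p (powK b)) (prm v)
  have hp' : ((p : ℕ) : 𝓞 ↥(fixedField H)) ∉ (prm v).asIdeal := fun h =>
    hvp ((Nat.prime_dvd_prime_iff_eq v.1.2 Fact.out).1 (natCast_mem_prm.1 h))
  exact mem_locNorm_of_ord_eq_zero hR.deg hp' hw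
    (hR.ram_eq_one (by rwa [hw]) (by rw [hw, hb1]; exact dvd_zero _)) ha

variable (p)

/-- The global inputs of the duality theory hold for odd primes. -/
theorem globalInputs (hodd : p ≠ 2) : GlobalInputs p where
  exists_sFull := exists_sFull
  hq_eT := fun hH hμ _ hT => hq_eT hodd hH hμ hT
  sym_eq_zero_of_local := fun hH hμ a b h => sym_eq_zero_of_local hodd hH hμ a b h
  exists_pair := fun hH hμ b v w hvw hv hw => exists_pair hodd hH hμ b v w hvw hv hw
  locZero_units := fun hH hμ _ hvp a b ha hb => locZero_units hodd hH hμ hvp a b ha hb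

end Fermat.Agent.CFT.Bridge
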