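import Fermat.Agent.CFT.Bridge.Units
import Fermat.Agent.CFT.Kummer

/-!
# Kummer fields of a fixed field inside `ℚ̄`

The Kummer field of an element of `rootU`, its embeddings into `ℚ̄`, and the norm as a product
of Galois conjugates.
-/

noncomputable section

namespace Fermat.Agent.CFT.Bridge

open NumberField IsDedekindDomain WithZero IntermediateField
open Fermat.Agent.PT (Gam LG Cyc Chi fixU fixUEquiv cyc)

local notation "Qb" => AlgebraicClosure ℚ

variable {p : ℕ} [Fact p.Prime] {H : Subgroup Gam}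

/-- The `p`-th power of a root, in the fixed field. -/
def powK (r : ↥(Cyc.rootU p H)) : (↥(fixedField H))ˣ :=
  (fixUEquiv H).symm ⟨(r : Qbˣ) ^ p, r.2⟩

omit [Fact p.Prime] in
theorem coe_powK (r : ↥(Cyc.rootU p H)) :
    ((powK r : ↥(fixedField H)) : Qb) = (((r : Qbˣ) ^ p : Qbˣ) : Qb) :=
  congrArg (fun z : fixU H => ((z : Qbˣ) : Qb))
    ((fixUEquiv H).apply_symm_apply (⟨(r : Qbˣ) ^ p, r.2⟩ : fixU H))

theorem exists_powK_eq (x : (↥(fixedField H))ˣ) : ∃ r : ↥(Cyc.rootU p H), powK r = x := by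
  obtain ⟨z, hz⟩ := IsAlgClosed.exists_pow_nat_eq ((x : ↥(fixedField H)) : Qb)
    (Fact.out : p.Prime).pos
  have hz0 : z ≠ 0 := fun h => x.ne_zero (Subtype.ext (by
    rw [← hz, h, zero_pow (Fact.out : p.Prime).ne_zero]; rfl))
  have hmem : Units.mk0 z hz0 ∈ Cyc.rootU p H := fun h => Units.ext (by
    show (h : Gam) (((Units.mk0 z hz0) ^ p : Qbˣ) : Qb) = _
    rw [Units.val_pow_eq_pow_val, Units.val_mk0, hz]
    exact PT.mem_fixedField_iff.1 (x : ↥(fixedField H)).2 h h.2)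
  refine ⟨⟨_, hmem⟩, Units.ext (Subtype.ext ?_)⟩
  rw [coe_powK]
  simp [hz]

theorem powK_notPow (hμ : (cyc p).MuFix H) {b : ↥(Cyc.rootU p H)}
    (hb : ∃ g, (cyc p).kum H b g ≠ 0) (y : (↥(fixedField H))ˣ) : y ^ p ≠ powK b := by
  intro h
  obtain ⟨g, hg⟩ := hb
  refine hg ((Cyc.kum_eq_zero_iff b.2 g).2 ?_)
  set yq : Qbˣ := ((fixUEquiv H y : fixU H) : Qbˣ) with hyq
  have hy : yq ∈ fixU H := (fixUEquiv H y).2
  have hp' : ((b : Qbˣ) / yq) ^ p = 1 := by
    rw [div_pow, div_eq_one]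
    refine Units.ext ?_
    rw [← coe_powK, ← h, Units.val_pow_eq_pow_val, SubmonoidClass.coe_pow, Units.val_pow_eq_pow_val]
    rfl
  have hmu := Cyc.smul_mu_of_muFix hμ g ((cyc p).lg ((b : Qbˣ) / yq))
  rw [(cyc p).mu_lg hp', smul_div', hy g] at hmu
  exact div_left_inj.1 hmu

/-- An element of `H` as an automorphism over the fixed field, composed with an embedding. -/
def conjEmb {L : Type} [Field L] [Algebra ↥(fixedField H) L] (h : ↥H)
    (φ : L →ₐ[↥(fixedField H)] Qb) : L →ₐ[↥(fixedField H)] Qb where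
  toRingHom := ((h : Gam) : Qb →+* Qb).comp φ.toRingHom
  commutes' x := by
    show (h : Gam) (φ (algebraMap ↥(fixedField H) L x)) = _
    rw [φ.commutes]
    exact PT.mem_fixedField_iff.1 x.2 h h.2

variable [NumberField ↥(fixedField H)] {L : Type} [Field L] [NumberField L]
  [Algebra ↥(fixedField H) L] [IsGalois ↥(fixedField H) L]

omit [NumberField ↥(fixedField H)] [NumberField L] [IsGalois ↥(fixedField H) L] in
/-- An embedding sends a root of `powK b` to a root of unity times `b`. -/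
theorem exists_emb_root_eq {b : ↥(Cyc.rootU p H)} (φ : L →ₐ[↥(fixedField H)] Qb) {r : Lˣ}
    (hr : (r : L) ^ p = algebraMap ↥(fixedField H) L (powK b : ↥(fixedField H))) :
    ∃ k, Units.map (φ : L →* Qb) r = (cyc p).mu k * (b : Qbˣ) := by
  have hsp : (Units.map (φ : L →* Qb) r / (b : Qbˣ)) ^ p = 1 := by
    rw [div_pow, div_eq_one]
    refine Units.ext ?_
    show φ (r : L) ^ p = _
    rw [← map_pow, hr, φ.commutes, ← coe_powK]
    rfl
  exact ⟨_, by rw [(cyc p).mu_lg hsp, div_mul_cancel]⟩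

/-- The conjugates of an embedding of a Kummer field are given by powers of any element with
nontrivial Kummer value. -/
theorem bijective_conjEmb (hμ : (cyc p).MuFix H) {b : ↥(Cyc.rootU p H)}
    (hR : IsRad L p (powK b)) (φ : L →ₐ[↥(fixedField H)] Qb) {σ : ↥H}
    (hσ : (cyc p).kum H b σ ≠ 0) :
    Function.Bijective fun i : Fin p => conjEmb (σ ^ (i : ℕ)) φ := by
  have hcard : Fintype.card (L →ₐ[↥(fixedField H)] Qb) = p :=
    (AlgHom.card ↥(fixedField H) L Qb).trans hR.deg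
  refine (Fintype.bijective_iff_injective_and_card _).2 ⟨fun i j hij => ?_, by simp [hcard]⟩
  obtain ⟨r, hr⟩ := hR.root
  obtain ⟨k, hsb⟩ := exists_emb_root_eq φ hr
  set s : Qbˣ := Units.map (φ : L →* Qb) r
  have e : ((σ ^ (i : ℕ) : ↥H) : Gam) • s = ((σ ^ (j : ℕ) : ↥H) : Gam) • s :=
    Units.ext (DFunLike.congr_fun hij (r : L))
  rw [hsb, smul_mul', smul_mul', Cyc.smul_mu_of_muFix hμ, Cyc.smul_mu_of_muFix hμ,
    mul_right_inj] at e
  have e' : (cyc p).kum H b (σ ^ (i : ℕ)) = (cyc p).kum H b (σ ^ (j : ℕ)) := by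
    apply (cyc p).mu_injective
    rw [Cyc.mu_kum b.2, Cyc.mu_kum b.2, e]
  rw [Cyc.kum_pow hμ b.2, Cyc.kum_pow hμ b.2] at e'
  have := congrArg ZMod.val (mul_right_cancel₀ hσ e')
  rw [ZMod.val_cast_of_lt i.2, ZMod.val_cast_of_lt j.2] at this
  exact Fin.ext this

/-- The norm from a Kummer field as a product of conjugates. -/
theorem coe_norm_eq_prod (hμ : (cyc p).MuFix H) {b : ↥(Cyc.rootU p H)}
    (hR : IsRad L p (powK b)) (φ : L →ₐ[↥(fixedField H)] Qb) {σ : ↥H}
    (hσ : (cyc p).kum H b σ ≠ 0) (y : L) :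
    ((Algebra.norm ↥(fixedField H) y : ↥(fixedField H)) : Qb) =
      ∏ i ∈ Finset.range p, ((σ ^ i : ↥H) : Gam) (φ y) := by
  have h : ((Algebra.norm ↥(fixedField H) y : ↥(fixedField H)) : Qb) =
      ∏ ψ : L →ₐ[↥(fixedField H)] Qb, ψ y := Algebra.norm_eq_prod_embeddings ↥(fixedField H) Qb y
  rw [h, ← (Equiv.ofBijective _ (bijective_conjEmb hμ hR φ hσ)).prod_comp (fun ψ => ψ y)]
  exact Fin.prod_univ_eq_prod_range (fun i => ((σ ^ i : ↥H) : Gam) (φ y)) p

/-- The image of a Kummer field is fixed by the kernel of the Kummer character. -/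
theorem apply_emb_of_kum_eq_zero (hμ : (cyc p).MuFix H) {b : ↥(Cyc.rootU p H)}
    (hR : IsRad L p (powK b)) (φ : L →ₐ[↥(fixedField H)] Qb)
    (hb : ∃ g, (cyc p).kum H b g ≠ 0) {h : ↥H} (hh : (cyc p).kum H b h = 0) (y : L) :
    (h : Gam) (φ y) = φ y := by
  obtain ⟨σ, hσ⟩ := hb
  obtain ⟨i, hi⟩ := (bijective_conjEmb hμ hR φ hσ).2 (conjEmb h φ)
  obtain ⟨r, hr⟩ := hR.root
  obtain ⟨k, hsb⟩ := exists_emb_root_eq φ hr
  set s : Qbˣ := Units.map (φ : L →* Qb) r
  have e : ((σ ^ (i : ℕ) : ↥H) : Gam) • s = (h : Gam) • s :=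
    Units.ext (DFunLike.congr_fun hi (r : L))
  rw [hsb, smul_mul', smul_mul', Cyc.smul_mu_of_muFix hμ, Cyc.smul_mu_of_muFix hμ,
    mul_right_inj, (Cyc.kum_eq_zero_iff b.2 h).1 hh, ← Cyc.kum_eq_zero_iff b.2,
    Cyc.kum_pow hμ b.2, mul_eq_zero, or_iff_left hσ] at e
  have hi0 : (i : ℕ) = 0 := by
    have := congrArg ZMod.val e
    rwa [ZMod.val_cast_of_lt i.2, ZMod.val_zero] at this
  have := DFunLike.congr_fun hi y
  simp only [hi0, pow_zero] at this
  exact this.symm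

/-- Everything fixed by the kernel of the Kummer character lies in the image of the Kummer
field. -/
theorem exists_emb_eq (hH : H ∈ LG) (hμ : (cyc p).MuFix H) {b : ↥(Cyc.rootU p H)}
    (hR : IsRad L p (powK b)) (φ : L →ₐ[↥(fixedField H)] Qb)
    (hb : ∃ g, (cyc p).kum H b g ≠ 0) {z : Qb}
    (hz : ∀ h : ↥H, (cyc p).kum H b h = 0 → (h : Gam) z = z) : ∃ y : L, φ y = z := by
  set X := Cyc.chiOf hμ b.2 hb
  have hXL : X.ker ∈ LG := X.ker_mem_krull hH
  have hfd := PT.finiteDimensional_fixedField hXL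
  have hle : (φ.restrictScalars ℚ).fieldRange ≤ fixedField X.ker := by
    rintro _ ⟨y, rfl⟩
    refine PT.mem_fixedField_iff.2 fun h hh => ?_
    exact apply_emb_of_kum_eq_zero hμ hR φ hb (h := ⟨h, X.ker_le hh⟩) (X.mem_ker.1 hh) y
  have hdeg : Module.finrank ℚ (φ.restrictScalars ℚ).fieldRange =
      Module.finrank ℚ (fixedField X.ker) := by
    rw [show Module.finrank ℚ (φ.restrictScalars ℚ).fieldRange = Module.finrank ℚ L from
        (AlgEquiv.ofInjectiveField (φ.restrictScalars ℚ)).toLinearEquiv.finrank_eq.symm,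
      PT.finrank_fixedField hXL, X.ker_index, ← Module.finrank_mul_finrank ℚ ↥(fixedField H) L,
      hR.deg, PT.finrank_fixedField hH, mul_comm]
  have hzmem : z ∈ fixedField X.ker :=
    PT.mem_fixedField_iff.2 fun h hh => hz ⟨h, X.ker_le hh⟩ (X.mem_ker.1 hh)
  rw [← IntermediateField.eq_of_le_of_finrank_eq hle hdeg] at hzmem
  exact hzmem

end Fermat.Agent.CFT.Bridge
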