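import Mathlib.RingTheory.Norm.Transitivity
import Fermat.Agent.CFT.SUnits
import Fermat.Agent.PT.GSPlaces

/-!
# Places of a number field inside `ℚ̄` and primes of its ring of integers

The correspondence between the places `Plc H` of the fixed field of `H` and the nonzero primes
of its ring of integers, with congruences expressed as smallness at the place.
-/

noncomputable section

namespace Fermat.Agent.CFT.Bridge

open NumberField IsDedekindDomain WithZero IntermediateField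
open Fermat.Agent.PT (Gam LG LS Plc Pl SamePlace nq nP fixU fixUEquiv eT SFull placesOver)

local notation "Qb" => AlgebraicClosure ℚ

variable {H : Subgroup Gam}

/-- The fixed field is a number field. -/
theorem numberField_fixedField (hH : H ∈ LG) : NumberField ↥(fixedField H) := by
  have := PT.finiteDimensional_fixedField hH
  exact { }

theorem isIntegral_coe (x : 𝓞 ↥(fixedField H)) : IsIntegral ℤ ((x : ↥(fixedField H)) : Qb) :=
  x.2.map (fixedField H).val.toRingHom.toIntAlgHom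

theorem nq_lt_natCast (r : Nat.Primes) (g : Gam) (n : ℕ) :
    nq (r : ℕ) g (((n : 𝓞 ↥(fixedField H)) : ↥(fixedField H)) : Qb) < 1 ↔ (r : ℕ) ∣ n := by
  rw [show (((n : 𝓞 ↥(fixedField H)) : ↥(fixedField H)) : Qb) = ((n : ℚ) : Qb) by simp,
    PT.nq_ratCast, Rat.cast_natCast, Padic.norm_natCast_lt_one_iff]

variable (H) in
/-- The ideal of integers small at an embedding. -/
def smallIdeal (r : Nat.Primes) (g : Gam) : Ideal (𝓞 ↥(fixedField H)) where
  carrier := {x | nq (r : ℕ) g ((x : ↥(fixedField H)) : Qb) < 1}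
  add_mem' := fun {a b} ha hb => by
    have := PT.nq_add_le (q := (r : ℕ)) g ((a : ↥(fixedField H)) : Qb)
      ((b : ↥(fixedField H)) : Qb)
    exact lt_of_le_of_lt this (max_lt ha hb)
  zero_mem' := by
    show nq (r : ℕ) g (((0 : 𝓞 ↥(fixedField H)) : ↥(fixedField H)) : Qb) < 1
    simp [PT.nq_zero]
  smul_mem' := fun c x hx => by
    show nq (r : ℕ) g (((c • x : 𝓞 ↥(fixedField H)) : ↥(fixedField H)) : Qb) < 1
    simp only [smul_eq_mul, map_mul, MulMemClass.coe_mul, PT.nq_mul]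
    exact mul_lt_one_of_nonneg_of_lt_one_right (PT.nq_le_one_of_isIntegral g (isIntegral_coe c))
      (PT.nq_nonneg _ _) hx

theorem mem_smallIdeal {r : Nat.Primes} {g : Gam} {x : 𝓞 ↥(fixedField H)} :
    x ∈ smallIdeal H r g ↔ nq (r : ℕ) g ((x : ↥(fixedField H)) : Qb) < 1 := Iff.rfl

theorem smallIdeal_ne_bot (r : Nat.Primes) (g : Gam) :
    smallIdeal H r g ≠ ⊥ := fun h => by
  have h1 : ((r : ℕ) : 𝓞 ↥(fixedField H)) ∈ smallIdeal H r g :=
    mem_smallIdeal.2 ((nq_lt_natCast r g _).2 dvd_rfl)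
  rw [h, Ideal.mem_bot, Nat.cast_eq_zero] at h1
  exact r.2.ne_zero h1

theorem smallIdeal_isPrime (r : Nat.Primes) (g : Gam) : (smallIdeal H r g).IsPrime := by
  refine ⟨fun h => ?_, fun {x y} hxy => ?_⟩
  · have h1 : ((1 : ℕ) : 𝓞 ↥(fixedField H)) ∈ smallIdeal H r g := h ▸ Submodule.mem_top
    rw [mem_smallIdeal, nq_lt_natCast] at h1
    exact r.2.not_dvd_one h1
  · by_contra! hc
    rw [mem_smallIdeal, mem_smallIdeal, not_lt, not_lt] at hc
    rw [mem_smallIdeal] at hxy
    simp only [map_mul, MulMemClass.coe_mul, PT.nq_mul] at hxy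
    exact absurd hxy (not_lt.2 (one_le_mul_of_one_le_of_one_le hc.1 hc.2))

variable [NumberField ↥(fixedField H)]

/-- The prime of a place. -/
def prm (v : Plc H) : HeightOneSpectrum (𝓞 ↥(fixedField H)) :=
  ⟨smallIdeal H v.1 v.2.rep, smallIdeal_isPrime _ _, smallIdeal_ne_bot _ _⟩

omit [NumberField ↥(fixedField H)] in
theorem natCast_mem_prm {v : Plc H} {n : ℕ} :
    (n : 𝓞 ↥(fixedField H)) ∈ (prm v).asIdeal ↔ ((v.1 : Nat.Primes) : ℕ) ∣ n :=
  mem_smallIdeal.trans (nq_lt_natCast _ _ n)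

theorem nP_eq_one_of_ord_eq_zero {v : Plc H} {x : (↥(fixedField H))ˣ} (hx : ord (prm v) x = 0) :
    nP v ((x : ↥(fixedField H)) : Qb) = 1 := by
  have key : ∀ y : (↥(fixedField H))ˣ, ord (prm v) y = 0 →
      nP v ((y : ↥(fixedField H)) : Qb) ≤ 1 := fun y hy => by
    obtain ⟨n, ⟨d, hd⟩, e⟩ := (prm v).exists_primeCompl_mul_eq_of_integer
      (y : ↥(fixedField H)) (by rw [valuation_eq_exp, hy, neg_zero, exp_zero])
    have hd1 : nq (v.1 : ℕ) v.2.rep ((d : ↥(fixedField H)) : Qb) = 1 :=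
      le_antisymm (PT.nq_le_one_of_isIntegral _ (isIntegral_coe d)) (not_lt.1 fun h => hd h)
    have e' := congrArg (fun z : ↥(fixedField H) => nq (v.1 : ℕ) v.2.rep (z : Qb)) e
    simp only [MulMemClass.coe_mul, PT.nq_mul] at e'
    rw [hd1, mul_one] at e'
    rw [nP, e']
    exact PT.nq_le_one_of_isIntegral _ (isIntegral_coe n)
  refine le_antisymm (key x hx) ?_
  have h := key x⁻¹ (by rw [ord_inv, hx, neg_zero])
  rw [nP, Units.val_inv_eq_inv_val, IntermediateField.coe_inv, PT.nq_inv] at h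
  exact (inv_le_one₀ (PT.nq_pos _ fun h0 => x.ne_zero (Subtype.ext h0))).1 h

/-- The value of a uniformiser. -/
def theta (v : Plc H) : ℝ :=
  nP v (((exists_ord_eq (prm v) 1).choose : ↥(fixedField H)) : Qb)

theorem nP_eq_zpow (v : Plc H) (x : (↥(fixedField H))ˣ) :
    nP v ((x : ↥(fixedField H)) : Qb) = theta v ^ ord (prm v) x := by
  set π := (exists_ord_eq (prm v) 1).choose
  have hπ : ord (prm v) π = 1 := (exists_ord_eq (prm v) 1).choose_spec
  have h := nP_eq_one_of_ord_eq_zero (v := v) (x := x / π ^ ord (prm v) x)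
    (by rw [ord_div, ord_zpow, hπ, mul_one, sub_self])
  let f : (↥(fixedField H))ˣ →* ℝ :=
    { toFun := fun y => nP v ((y : ↥(fixedField H)) : Qb)
      map_one' := by simp [nP, PT.nq_one]
      map_mul' := fun a b => by simp [nP, PT.nq_mul] }
  have e : f x = f (x / π ^ ord (prm v) x) * f (π ^ ord (prm v) x) := by
    rw [← map_mul, div_mul_cancel]
  have e2 : f (π ^ ord (prm v) x) = theta v ^ ord (prm v) x := by
    show nP v (((π ^ ord (prm v) x : (↥(fixedField H))ˣ) : ↥(fixedField H)) : Qb) = _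
    have hgen : ∀ n : ℤ, nP v (((π ^ n : (↥(fixedField H))ˣ) : ↥(fixedField H)) : Qb) =
        nP v ((π : ↥(fixedField H)) : Qb) ^ n := fun n => by
      cases n with
      | ofNat m => simp [nP, PT.nq_pow]
      | negSucc m => simp [nP, PT.nq_pow, PT.nq_inv]
    exact hgen _
  show f x = _
  rw [e, show f (x / π ^ ord (prm v) x) = 1 from h, one_mul, e2]

omit [NumberField ↥(fixedField H)] in
theorem nP_natCast (v : Plc H) :
    nP v (((((v.1 : Nat.Primes) : ℕ) : ↥(fixedField H))) : Qb) =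
      (((v.1 : Nat.Primes) : ℕ) : ℝ)⁻¹ := by
  show nq (v.1 : ℕ) v.2.rep _ = _
  rw [show (((((v.1 : Nat.Primes) : ℕ) : ↥(fixedField H))) : Qb) =
    ((((v.1 : Nat.Primes) : ℕ) : ℚ) : Qb) by simp, PT.nq_ratCast, Rat.cast_natCast, Padic.norm_p]

/-- The rational prime under a place has positive order at its prime. -/
theorem exists_natCast_ord_pos (v : Plc H) : ∃ x : (↥(fixedField H))ˣ,
    (x : ↥(fixedField H)) = (((v.1 : Nat.Primes) : ℕ) : ↥(fixedField H)) ∧ 0 < ord (prm v) x := by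
  have hr : (((v.1 : Nat.Primes) : ℕ) : 𝓞 ↥(fixedField H)) ∈ (prm v).asIdeal :=
    natCast_mem_prm.2 dvd_rfl
  refine ⟨Units.mk0 _ (Nat.cast_ne_zero.2 v.1.2.ne_zero), rfl, zero_lt_one.trans_le
    ((ordGE_iff (prm v) _ _).1 ?_)⟩
  rw [Units.val_mk0, ← map_natCast (algebraMap (𝓞 ↥(fixedField H)) ↥(fixedField H))]
  exact (ordGE_algebraMap_iff _ 1).2 (by rwa [pow_one])

theorem theta_pos (v : Plc H) : 0 < theta v :=
  PT.nq_pos _ fun h => (Units.ne_zero (exists_ord_eq (prm v) 1).choose) (Subtype.ext h)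

theorem theta_lt_one (v : Plc H) : theta v < 1 := by
  obtain ⟨x, hxr, hx⟩ := exists_natCast_ord_pos v
  have hnx := nP_natCast v
  rw [← hxr, nP_eq_zpow] at hnx
  by_contra h
  rw [not_lt] at h
  have h1 : (1 : ℝ) ≤ theta v ^ ord (prm v) x := one_le_zpow₀ h hx.le
  rw [hnx] at h1
  have h2 : (((v.1 : Nat.Primes) : ℕ) : ℝ)⁻¹ < 1 :=
    inv_lt_one_of_one_lt₀ (by exact_mod_cast v.1.2.one_lt)
  linarith

theorem nP_eq_one_iff (v : Plc H) (x : (↥(fixedField H))ˣ) :
    nP v ((x : ↥(fixedField H)) : Qb) = 1 ↔ ord (prm v) x = 0 := by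
  rw [nP_eq_zpow, zpow_eq_one_iff_right₀ (theta_pos v).le (theta_lt_one v).ne]

/-- Congruences are smallness conditions. -/
theorem ordGE_iff_nP (v : Plc H) (n : ℕ) (y : ↥(fixedField H)) :
    OrdGE (prm v) (n : ℤ) y ↔ nP v (y : Qb) ≤ theta v ^ n := by
  rcases eq_or_ne y 0 with rfl | hy
  · simp [ordGE_zero, nP, PT.nq_zero, pow_nonneg (theta_pos v).le]
  · rw [show y = (Units.mk0 y hy : ↥(fixedField H)) from rfl, ordGE_iff, nP_eq_zpow,
      ← zpow_natCast, zpow_le_zpow_iff_right_of_lt_one₀ (theta_pos v) (theta_lt_one v)]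

/-- Different places give different primes. -/
theorem prm_injective (hH : H ∈ LG) : Function.Injective (prm (H := H)) := by
  rintro ⟨r, a⟩ ⟨r', b⟩ h
  have hrr : r = r' := by
    refine Subtype.ext ((Nat.prime_dvd_prime_iff_eq r.2 r'.2).1 ?_)
    refine (natCast_mem_prm (v := (⟨r, a⟩ : Plc H))).1 ?_
    rw [h]
    exact natCast_mem_prm.2 dvd_rfl
  subst hrr
  refine congrArg (Sigma.mk r) ?_
  rw [← Pl.mk_rep a, ← Pl.mk_rep b]
  refine PT.Pl.mk_eq.2 (PT.samePlace_of_nq_eq hH fun x hx => ?_)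
  rcases eq_or_ne x 0 with rfl | hx0
  · simp [PT.nq_zero]
  let u : (↥(fixedField H))ˣ := Units.mk0 ⟨x, PT.mem_fixedField_iff.2 hx⟩
    fun h0 => hx0 (congrArg Subtype.val h0)
  obtain ⟨y, hyr, hy⟩ := exists_natCast_ord_pos (⟨r, a⟩ : Plc H)
  have hb : nP (⟨r, b⟩ : Plc H) ((y : ↥(fixedField H)) : Qb) =
      nP (⟨r, a⟩ : Plc H) ((y : ↥(fixedField H)) : Qb) := by
    rw [hyr]
    exact (nP_natCast (⟨r, b⟩ : Plc H)).trans (nP_natCast (⟨r, a⟩ : Plc H)).symm
  have hθ : theta (⟨r, b⟩ : Plc H) = theta (⟨r, a⟩ : Plc H) := by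
    rw [nP_eq_zpow, nP_eq_zpow, ← h] at hb
    exact zpow_left_injOn₀ hy.ne' (theta_pos _).le (theta_pos _).le hb
  have ea := nP_eq_zpow (⟨r, a⟩ : Plc H) u
  have eb := nP_eq_zpow (⟨r, b⟩ : Plc H) u
  rw [← h, hθ, ← ea] at eb
  exact eb

omit [NumberField ↥(fixedField H)] in
/-- Every prime contains a rational prime. -/
theorem exists_prime_mem (P : HeightOneSpectrum (𝓞 ↥(fixedField H))) :
    ∃ r : Nat.Primes, ((r : ℕ) : 𝓞 ↥(fixedField H)) ∈ P.asIdeal := by
  have h0 : (P.asIdeal.under ℤ) ≠ ⊥ := Ideal.under_ne_bot ℤ P.ne_bot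
  obtain ⟨n, hn⟩ := (IsPrincipalIdealRing.principal (P.asIdeal.under ℤ)).principal
  rw [Ideal.submodule_span_eq] at hn
  have hn0 : n ≠ 0 := fun h => h0 (by rw [hn, h, Ideal.span_singleton_eq_bot.2 rfl])
  have hp : (Ideal.span {n}).IsPrime := hn ▸ Ideal.IsPrime.under ℤ P.asIdeal
  rw [Ideal.span_singleton_prime hn0, Int.prime_iff_natAbs_prime] at hp
  refine ⟨⟨n.natAbs, hp⟩, ?_⟩
  have h1 : ((n.natAbs : ℕ) : ℤ) ∈ P.asIdeal.under ℤ := by
    rw [hn, Ideal.mem_span_singleton, Int.natCast_natAbs, dvd_abs]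
  have h2 : algebraMap ℤ (𝓞 ↥(fixedField H)) ((n.natAbs : ℕ) : ℤ) =
      ((n.natAbs : ℕ) : 𝓞 ↥(fixedField H)) := map_natCast _ _
  rw [← h2]
  exact h1

/-- Every prime comes from a place. -/
theorem prm_surjective (hH : H ∈ LG) : Function.Surjective (prm (H := H)) := by
  intro P
  obtain ⟨r, hr⟩ := exists_prime_mem P
  have : Finite (Pl (r : ℕ) H) := PT.finite_pl hH
  let _ := Fintype.ofFinite (Pl (r : ℕ) H)
  by_contra hne
  push Not at hne
  -- an element of `P` outside all primes of places above `r`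
  obtain ⟨a, ha⟩ := Ideal.exists_forall_sub_mem_ideal
    (I := fun o : Option (Pl (r : ℕ) H) =>
      o.elim P.asIdeal fun c => (prm (⟨r, c⟩ : Plc H)).asIdeal)
    (fun o o' hoo => by
      refine Ideal.isCoprime_iff_sup_eq.2 (Ideal.IsMaximal.coprime_of_ne ?_ ?_ ?_)
      · cases o <;> exact HeightOneSpectrum.isMaximal _
      · cases o' <;> exact HeightOneSpectrum.isMaximal _
      · cases o with
        | none =>
          cases o' with
          | none => exact absurd rfl hoo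
          | some c => exact fun e => hne ⟨r, c⟩ (HeightOneSpectrum.ext e.symm)
        | some c =>
          cases o' with
          | none => exact fun e => hne ⟨r, c⟩ (HeightOneSpectrum.ext e)
          | some c' =>
            refine fun e => hoo (congrArg some ?_)
            have := prm_injective hH (HeightOneSpectrum.ext e)
            exact eq_of_heq (Sigma.mk.inj this).2)
    fun o => o.elim 0 fun _ => 1
  have haP : a ∈ P.asIdeal := by simpa using ha none
  have haU : ∀ g : Gam, nq (r : ℕ) g ((a : ↥(fixedField H)) : Qb) = 1 := fun g => by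
    rw [← PT.nq_samePlace (PT.Pl.samePlace_rep g)
      (PT.mem_fixedField_iff.1 (a : ↥(fixedField H)).2)]
    refine le_antisymm (PT.nq_le_one_of_isIntegral _ (isIntegral_coe a)) (not_lt.1 fun hlt => ?_)
    have h1 : a - 1 ∈ (prm (⟨r, Pl.mk g⟩ : Plc H)).asIdeal := ha (some (Pl.mk g))
    have h2 : (1 : 𝓞 ↥(fixedField H)) ∈ (prm (⟨r, Pl.mk g⟩ : Plc H)).asIdeal := by
      have h3 : a ∈ (prm (⟨r, Pl.mk g⟩ : Plc H)).asIdeal := mem_smallIdeal.2 hlt
      have h4 := sub_mem h3 h1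
      rwa [sub_sub_cancel] at h4
    exact (prm (⟨r, Pl.mk g⟩ : Plc H)).isPrime.one_notMem h2
  -- the absolute norm lies in `r ℤ`, so some conjugate is small
  have : FiniteDimensional ℚ ↥(fixedField H) := PT.finiteDimensional_fixedField hH
  set N : ℤ := Algebra.norm ℤ a with hN
  have hNQ : ((N : ℚ) : Qb) = ∏ φ : ↥(fixedField H) →ₐ[ℚ] Qb, φ (a : ↥(fixedField H)) := by
    rw [← Algebra.norm_eq_prod_embeddings ℚ Qb, hN, Algebra.coe_norm_int]
    rfl
  have hdvd : ((r : ℕ) : ℤ) ∣ N := by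
    have hmem : algebraMap ℤ (𝓞 ↥(fixedField H)) N ∈ P.asIdeal := by
      obtain ⟨k, hk⟩ := Ideal.absNorm_dvd_norm_of_mem haP
      rw [hN, hk, map_mul, map_natCast]
      exact Ideal.mul_mem_right _ _ (Ideal.absNorm_mem P.asIdeal)
    have hu : (P.asIdeal.under ℤ).IsPrime := Ideal.IsPrime.under ℤ P.asIdeal
    have hle : Ideal.span {((r : ℕ) : ℤ)} ≤ P.asIdeal.under ℤ := by
      rw [Ideal.span_singleton_le_iff_mem]
      show algebraMap ℤ (𝓞 ↥(fixedField H)) _ ∈ P.asIdeal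
      simpa using hr
    have hmax : (Ideal.span {((r : ℕ) : ℤ)}).IsMaximal :=
      PrincipalIdealRing.isMaximal_of_irreducible (Nat.prime_iff_prime_int.1 r.2).irreducible
    have e := hmax.eq_of_le hu.ne_top hle
    have h2 : N ∈ P.asIdeal.under ℤ := hmem
    rw [← e, Ideal.mem_span_singleton] at h2
    exact h2
  have hone : nq (r : ℕ) 1 ((N : ℚ) : Qb) = 1 := by
    rw [hNQ]
    have hf : ∀ φ : ↥(fixedField H) →ₐ[ℚ] Qb, nq (r : ℕ) 1 (φ (a : ↥(fixedField H))) = 1 :=
      fun φ => by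
        obtain ⟨ψ, hψ⟩ : ∃ ψ : Qb →ₐ[ℚ] Qb, ψ.comp (fixedField H).val = φ :=
          IntermediateField.exists_algHom_of_splits' φ fun s =>
            ⟨Algebra.IsIntegral.isIntegral s, IsAlgClosed.splits _⟩
        rw [← hψ]
        exact haU (AlgEquiv.ofBijective ψ (Algebra.IsAlgebraic.algHom_bijective ψ))
    classical
    induction (Finset.univ : Finset (↥(fixedField H) →ₐ[ℚ] Qb)) using Finset.induction with
    | empty => simp [PT.nq_one]
    | insert φ s hφ ih => rw [Finset.prod_insert hφ, PT.nq_mul, ih, hf, mul_one]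
  rw [PT.nq_ratCast, Rat.cast_intCast] at hone
  have := (Padic.norm_intCast_lt_one_iff (p := (r : ℕ))).2 hdvd
  linarith

/-- The `T`-units are the units outside the corresponding set of primes. -/
theorem mem_eT_iff (hH : H ∈ LG) (T : Set (Plc H)) (x : (↥(fixedField H))ˣ) :
    ((fixUEquiv H x : fixU H) : Qbˣ) ∈ eT H T ↔ x ∈ sU (prm '' T) := by
  constructor
  · intro h P hP
    obtain ⟨v, rfl⟩ := prm_surjective hH P
    exact (nP_eq_one_iff v x).1 (h.2 v fun hv => hP ⟨v, hv, rfl⟩)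
  · intro h
    refine ⟨(fixUEquiv H x).2, fun v hv => (nP_eq_one_iff v x).2 (h _ ?_)⟩
    rintro ⟨w, hw, e⟩
    exact hv (prm_injective hH e ▸ hw)

end Fermat.Agent.CFT.Bridge
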