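import Fermat.Agent.CFT.Bridge.Kummer
import Fermat.Agent.PT.UnramLocal

/-!
# Local triviality of symbols and local norms

A symbol is locally trivial at a place exactly when the first argument is a local norm at the
corresponding prime from the Kummer field of the second (`locZero_sym_iff`).
-/

noncomputable section

namespace Fermat.Agent.CFT.Bridge

open NumberField IsDedekindDomain WithZero IntermediateField
open Fermat.Agent.PT (Gam GamQ LG LQ Cyc Chi Plc nq nP fixU fixUEquiv cyc cycLoc LocZero stab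
  locHom cj embU)

local notation "Qb" => AlgebraicClosure ℚ

variable {p : ℕ} [Fact p.Prime] {H : Subgroup Gam}

theorem norm_prod_sub_prod_le {R : Type*} [NormedField R] [IsUltrametricDist R] {ι : Type*}
    (s : Finset ι) (f g : ι → R) {δ : ℝ} (hδ0 : 0 ≤ δ) (hδ1 : δ ≤ 1)
    (h : ∀ i ∈ s, ‖f i - g i‖ ≤ δ * ‖g i‖) :
    ‖∏ i ∈ s, f i - ∏ i ∈ s, g i‖ ≤ δ * ∏ i ∈ s, ‖g i‖ := by
  classical
  induction s using Finset.induction with
  | empty => simpa using hδ0
  | insert a s ha ih =>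
    have ih' := ih fun i hi => h i (Finset.mem_insert_of_mem hi)
    have hQ : (0 : ℝ) ≤ ∏ i ∈ s, ‖g i‖ := Finset.prod_nonneg fun i _ => norm_nonneg _
    rw [Finset.prod_insert ha, Finset.prod_insert ha, Finset.prod_insert ha,
      show f a * ∏ i ∈ s, f i - g a * ∏ i ∈ s, g i = (f a - g a) * ∏ i ∈ s, f i +
        g a * (∏ i ∈ s, f i - ∏ i ∈ s, g i) by ring]
    refine (IsUltrametricDist.norm_add_le_max _ _).trans (max_le ?_ ?_)
    · have hP : ‖∏ i ∈ s, f i‖ ≤ ∏ i ∈ s, ‖g i‖ := by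
        rw [show ∏ i ∈ s, f i = (∏ i ∈ s, f i - ∏ i ∈ s, g i) + ∏ i ∈ s, g i by ring]
        refine (IsUltrametricDist.norm_add_le_max _ _).trans (max_le ?_ (le_of_eq (norm_prod _ _)))
        exact ih'.trans (mul_le_of_le_one_left hQ hδ1)
      rw [norm_mul, ← mul_assoc]
      exact mul_le_mul (h a (Finset.mem_insert_self a s)) hP (norm_nonneg _)
        (mul_nonneg hδ0 (norm_nonneg _))
    · rw [norm_mul, mul_left_comm δ]
      exact mul_le_mul_of_nonneg_left ih' (norm_nonneg _)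

omit [Fact p.Prime] in
/-- A local automorphism acts on the image of `z` through its global image. -/
theorem stab_apply_padicEmbedding {q : ℕ} [Fact q.Prime] (g : Gam) (τ : ↥(stab q H g)) (z : Qb) :
    (τ : GamQ q) (padicEmbedding q (g z)) = padicEmbedding q (g ((locHom q H g τ : Gam) z)) := by
  rw [← padicEmbedding_localGaloisToGlobal, PT.coe_locHom, PT.cj_apply, AlgEquiv.mul_apply,
    AlgEquiv.mul_apply]
  exact congrArg _ (AlgEquiv.apply_symm_apply g _).symm

variable [NumberField ↥(fixedField H)]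

/-- Closeness at a place is congruence at its prime. -/
theorem div_mem_congr_of_nP {v : Plc H} {n : ℕ} {x y : (↥(fixedField H))ˣ}
    (h : nP v (((x : ↥(fixedField H)) : Qb) - ((y : ↥(fixedField H)) : Qb)) ≤
      theta v ^ (n + 1) * nP v ((y : ↥(fixedField H)) : Qb)) :
    x / y ∈ congr (prm v) n := by
  refine congr_anti _ n.le_succ (mem_congr_of_pos _ n.succ_pos ((ordGE_iff_nP v _ _).2 ?_))
  have hy : 0 < nP v ((y : ↥(fixedField H)) : Qb) := by
    rw [nP_eq_zpow]; exact zpow_pos (theta_pos v) _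
  rw [← mul_le_mul_iff_of_pos_right hy]
  refine le_trans (le_of_eq ?_) h
  simp only [nP]
  rw [← PT.nq_mul]
  congr 1
  push_cast
  field_simp

/-- The powers of the value of a uniformiser tend to zero. -/
theorem exists_theta_pow_le (v : Plc H) {δ : ℝ} (hδ : 0 < δ) : ∃ n : ℕ, theta v ^ n ≤ δ := by
  obtain ⟨n, hn⟩ := exists_pow_lt_of_lt_one hδ (theta_lt_one v)
  exact ⟨n, hn.le⟩

omit [Fact p.Prime] in
/-- A root fixed by the decomposition group gives a local `p`-th power. -/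
theorem powK_mem_locPow (hH : H ∈ LG) (b : ↥(Cyc.rootU p H)) (v : Plc H)
    (hb : ∀ τ : ↥(stab (v.1 : ℕ) H v.2.rep),
      (τ : GamQ (v.1 : ℕ)) • embU (v.1 : ℕ) (v.2.rep • (b : Qbˣ)) =
        embU (v.1 : ℕ) (v.2.rep • (b : Qbˣ))) :
    powK b ∈ locPow (prm v) p := by
  refine (mem_locPow _ _).2 fun n => ?_
  set q := (v.1 : ℕ)
  set g := v.2.rep
  set a : PadicAlgCl q := padicEmbedding q (g ((b : Qbˣ) : Qb)) with ha
  have ha0 : 0 < ‖a‖ := PT.nq_pos (q := q) g (b : Qbˣ).ne_zero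
  have hθ : 0 < theta v ^ (n + 1) := pow_pos (theta_pos v) _
  have hθ1 : theta v ^ (n + 1) < 1 := pow_lt_one₀ (theta_pos v).le (theta_lt_one v) n.succ_ne_zero
  obtain ⟨z, hz, hze⟩ := PT.dense_local hH g (a := a)
    (fun τ hτ => congrArg Units.val (hb ⟨τ, hτ⟩)) (mul_pos hθ ha0)
  have hlt : ‖padicEmbedding q (g z) - a‖ < ‖a‖ :=
    hze.trans_le (mul_le_of_le_one_left ha0.le hθ1.le)
  have hzn : ‖padicEmbedding q (g z)‖ = ‖a‖ := PT.norm_eq_of_norm_sub_lt hlt
  have hz0 : z ≠ 0 := fun h => by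
    rw [h, map_zero, map_zero, norm_zero] at hzn
    linarith
  let zK : (↥(fixedField H))ˣ :=
    Units.mk0 ⟨z, PT.mem_fixedField_iff.2 hz⟩ fun h => hz0 (congrArg Subtype.val h)
  refine ⟨zK, div_mem_congr_of_nP ?_⟩
  rw [coe_powK, Units.val_pow_eq_pow_val, Units.val_pow_eq_pow_val, SubmonoidClass.coe_pow]
  simp only [nP, nq, Units.val_mk0, zK, map_sub, map_pow]
  have := norm_prod_sub_prod_le (Finset.range p) (fun _ => a) (fun _ => padicEmbedding q (g z))
    hθ.le hθ1.le fun i _ => by rw [norm_sub_rev, hzn]; exact hze.le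
  simpa using this

variable {L : Type} [Field L] [NumberField L] [Algebra ↥(fixedField H) L]
  [IsGalois ↥(fixedField H) L]

/-- If the root is fixed by the decomposition group then the prime splits in the Kummer field. -/
theorem isSplit_of_kum (hH : H ∈ LG) (hμ : (cyc p).MuFix H) {b : ↥(Cyc.rootU p H)}
    (hR : IsRad L p (powK b)) {v : Plc H}
    (hb : ∀ τ, (cycLoc (v.1 : ℕ) p).kum (stab (v.1 : ℕ) H v.2.rep)
      (embU (v.1 : ℕ) (v.2.rep • (b : Qbˣ))) τ = 0) :
    IsSplit L (prm v) := by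
  obtain ⟨ζ, hζ, -⟩ := exists_primitiveRoot hμ
  exact hR.split_of_mem_locPow hζ (powK_mem_locPow hH b v fun τ =>
    (Cyc.kum_eq_zero_iff (PT.embU_mem_rootU _ p _ b.2) τ).1 (hb τ))

/-- A symbol is locally trivial exactly when the first argument is a local norm. -/
theorem locZero_sym_iff (hodd : p ≠ 2) (hH : H ∈ LG) (hμ : (cyc p).MuFix H)
    {b : ↥(Cyc.rootU p H)} (hR : IsRad L p (powK b)) (hb : ∃ g, (cyc p).kum H b g ≠ 0)
    (v : Plc H) (a : ↥(Cyc.rootU p H)) :
    LocZero v (Cyc.sym H hμ a b) ↔ powK a ∈ locNorm L (prm v) := by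
  set q := (v.1 : ℕ) with hq
  set g := v.2.rep with hg
  rw [LocZero, PT.locH2_sym_eq_zero_iff]
  by_cases hloc : ∀ τ, (cycLoc q p).kum (stab q H g) (embU q (g • (b : Qbˣ))) τ = 0
  · rw [locNorm_eq_top_of_split hR.deg (isSplit_of_kum hH hμ hR hloc)]
    exact iff_of_true (Cyc.sym_eq_zero_of_right _ _ hloc) (Subgroup.mem_top _)
  push Not at hloc
  set hμ' := PT.muFix_stab q p g hμ
  set X := Cyc.chiOf hμ' (PT.embU_mem_rootU q p g b.2) hloc
  rw [Cyc.sym_eq_zero_iff hμ' X (fun _ => rfl)]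
  set φ : L →ₐ[↥(fixedField H)] Qb := IsAlgClosed.lift
  have hω : (((cyc p).ω g : (ZMod p)ˣ) : ZMod p) ≠ 0 := Units.ne_zero _
  have hσ : (cyc p).kum H b (locHom q H g X.σ) ≠ 0 := fun h0 => one_ne_zero (α := ZMod p) (by
    rw [← X.χ_σ]
    show (cycLoc q p).kum (stab q H g) (embU q (g • (b : Qbˣ))) X.σ = 0
    rw [PT.kum_loc q p g b.2, h0, mul_zero])
  -- the local norm of an element of the Kummer field is the global norm
  have hnorm : ∀ y : L,
      ∏ i ∈ Finset.range p, ((X.σ ^ i : ↥(stab q H g)) : GamQ q) (padicEmbedding q (g (φ y))) =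
        padicEmbedding q (g ((Algebra.norm ↥(fixedField H) y : ↥(fixedField H)) : Qb)) :=
    fun y => by
    rw [coe_norm_eq_prod hμ hR φ hσ, map_prod, map_prod]
    exact Finset.prod_congr rfl fun i _ => by rw [stab_apply_padicEmbedding, map_pow]
  -- elements fixed by the local kernel
  have hker : ∀ (τ : ↥(stab q H g)), X.χ τ = 0 ↔ (cyc p).kum H b (locHom q H g τ) = 0 := fun τ => by
    show (cycLoc q p).kum (stab q H g) (embU q (g • (b : Qbˣ))) τ = 0 ↔ _
    rw [PT.kum_loc q p g b.2, mul_eq_zero, or_iff_right hω]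
  have hapow : ((((⟨_, PT.embU_mem_rootU q p g a.2⟩ : ↥(Cyc.rootU p (stab q H g))) :
      (PadicAlgCl q)ˣ) ^ p : (PadicAlgCl q)ˣ) : PadicAlgCl q) =
      padicEmbedding q (g ((powK a : ↥(fixedField H)) : Qb)) := by
    rw [coe_powK, Units.val_pow_eq_pow_val, Units.val_pow_eq_pow_val, map_pow, map_pow]
    rfl
  constructor
  · rintro ⟨y, hy, hy'⟩
    refine mem_locNorm.2 fun n => ?_
    set δ := theta v ^ (n + 1) with hδdef
    have hδ : 0 < δ := pow_pos (theta_pos v) _
    have hδ1 : δ < 1 := pow_lt_one₀ (theta_pos v).le (theta_lt_one v) n.succ_ne_zero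
    have hy0 : 0 < ‖(y : PadicAlgCl q)‖ := norm_pos_iff.2 y.ne_zero
    set Xg := Cyc.chiOf hμ b.2 hb
    obtain ⟨z, hz, hze⟩ := PT.dense_local (H := Xg.ker) (Xg.ker_mem_krull hH) g
      (a := (y : PadicAlgCl q)) (fun τ hτ => congrArg Units.val
        (hy ⟨τ, Xg.ker_le hτ⟩ ((hker _).2 (Xg.mem_ker.1 hτ)))) (mul_pos hδ hy0)
    obtain ⟨y₀, hy₀⟩ := exists_emb_eq hH hμ hR φ hb (z := z)
      fun h hh => hz h (Xg.mem_ker.2 hh)
    have hiso : ∀ (τ : ↥(stab q H g)) (x : PadicAlgCl q), ‖(τ : GamQ q) x‖ = ‖x‖ :=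
      fun τ x => congrArg NNReal.toReal (nnnorm_padicAlgCl_algEquiv q τ x)
    have hclose : ‖∏ i ∈ Finset.range p, ((X.σ ^ i : ↥(stab q H g)) : GamQ q)
          (padicEmbedding q (g z)) -
        ∏ i ∈ Finset.range p, ((X.σ ^ i : ↥(stab q H g)) : GamQ q) (y : PadicAlgCl q)‖ ≤
        δ * ∏ i ∈ Finset.range p,
          ‖((X.σ ^ i : ↥(stab q H g)) : GamQ q) (y : PadicAlgCl q)‖ := by
      refine norm_prod_sub_prod_le _ _ _ hδ.le hδ1.le fun i _ => ?_
      rw [← map_sub, hiso, hiso]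
      exact hze.le
    have hprod : ∏ i ∈ Finset.range p, ((X.σ ^ i : ↥(stab q H g)) : GamQ q) (y : PadicAlgCl q) =
        padicEmbedding q (g ((powK a : ↥(fixedField H)) : Qb)) := by
      rw [← hapow, ← hy', Chi.nrm, Units.coe_prod]
      rfl
    rw [← norm_prod, hprod, ← hy₀, hnorm] at hclose
    have hN0 : y₀ ≠ 0 := fun h0 => by
      rw [h0, Algebra.norm_zero, ZeroMemClass.coe_zero, map_zero, map_zero, zero_sub, norm_neg]
        at hclose
      exact absurd hclose (not_le.2 (mul_lt_of_lt_one_left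
        (PT.nq_pos (q := q) g fun h => (powK a).ne_zero (Subtype.ext h)) hδ1))
    refine ⟨Units.mk0 y₀ hN0, ?_⟩
    rw [← inv_div]
    refine inv_mem (div_mem_congr_of_nP ?_)
    simp only [nP, nq, coe_normU, Units.val_mk0, map_sub]
    exact hclose
  · intro h
    have hp0 : (0 : ℝ) < ‖((p : ℕ) : ℚ_[q])‖ * (q : ℝ)⁻¹ :=
      mul_pos (norm_pos_iff.2 (Nat.cast_ne_zero.2 (Fact.out : p.Prime).ne_zero))
        (inv_pos.2 (Nat.cast_pos.2 v.1.2.pos))
    obtain ⟨n, hn⟩ := exists_theta_pow_le v hp0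
    obtain ⟨y₀, hy₀⟩ := mem_locNorm.1 h n
    set u := powK a / normU ↥(fixedField H) L y₀
    set uq : Qbˣ := ((fixUEquiv H u : fixU H) : Qbˣ)
    have huq : (uq : Qb) = ((u : ↥(fixedField H)) : Qb) := rfl
    have hfix : embU q (g • uq) ∈ fixU (stab q H g) := fun τ => Units.ext (by
      show (τ : GamQ q) (padicEmbedding q (g (uq : Qb))) = padicEmbedding q (g (uq : Qb))
      rw [stab_apply_padicEmbedding, huq,
        PT.mem_fixedField_iff.1 (u : ↥(fixedField H)).2 _ (locHom q H g τ).2])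
    obtain ⟨w, hw, hwu⟩ := PT.exists_root_of_close (p := p) hodd (PT.stab_mem q g hH) hfix (by
      have h1 := (ordGE_iff_nP v n _).1 hy₀.2
      simp only [nP, nq] at h1
      push_cast at h1
      rw [map_sub, map_one, map_sub, map_one] at h1
      show ‖padicEmbedding q (g (uq : Qb)) - 1‖ ≤ _
      rw [huq]
      exact h1.trans hn)
    have hφ0 : φ (y₀ : L) ≠ 0 := by simp
    set Y : Qbˣ := Units.mk0 (φ (y₀ : L)) hφ0
    refine ⟨embU q (g • Y) * w, fun τ hτ => ?_, ?_⟩
    · rw [smul_mul', hw τ]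
      refine congrArg (· * w) (Units.ext ?_)
      show (τ : GamQ q) (padicEmbedding q (g (φ (y₀ : L)))) =
        padicEmbedding q (g (φ (y₀ : L)))
      rw [stab_apply_padicEmbedding, apply_emb_of_kum_eq_zero hμ hR φ hb ((hker τ).1 hτ)]
    · rw [Chi.nrm_mul]
      have hwp : X.nrm w = embU q (g • uq) := by
        rw [← hwu, Chi.nrm, Finset.prod_congr rfl fun i _ => hw (X.σ ^ i), Finset.prod_const,
          Finset.card_range]
      rw [hwp]
      refine Units.ext ?_
      rw [hapow, Units.val_mul, Chi.nrm, Units.coe_prod]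
      show (∏ i ∈ Finset.range p, ((X.σ ^ i : ↥(stab q H g)) : GamQ q)
        (padicEmbedding q (g (φ (y₀ : L))))) * padicEmbedding q (g (uq : Qb)) = _
      rw [hnorm, ← map_mul, ← map_mul, huq, ← coe_normU]
      norm_cast
      rw [mul_div_cancel]

end Fermat.Agent.CFT.Bridge
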