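import Fermat.Agent.CFT.Bridge.Places

/-!
# `S`-units of the fixed field inside `ℚ̄`

Good sets of rational primes and the Herbrand ratio of the `T`-units, transported from the
number-field statements.
-/

noncomputable section

namespace Fermat.Agent.CFT.Bridge

open NumberField IsDedekindDomain WithZero IntermediateField
open Fermat.Agent.PT (Gam LG LS Plc Pl SamePlace nq nP fixU fixUEquiv eT SFull placesOver cyc
  mulHom FinHq hq)

local notation "Qb" => AlgebraicClosure ℚ

variable {H : Subgroup Gam}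

theorem exists_primitiveRoot {p : ℕ} [Fact p.Prime] (hμ : (cyc p).MuFix H) :
    ∃ ζ : ↥(fixedField H), IsPrimitiveRoot ζ p ∧ (ζ : Qb) = (((cyc p).ζ : Qbˣ) : Qb) := by
  have hfix : (((cyc p).ζ : Qbˣ) : Qb) ∈ fixedField H := PT.mem_fixedField_iff.2 fun h hh => by
    have e := (cyc p).act h
    rw [hμ h hh, Units.val_one, ZMod.val_one, pow_one] at e
    exact congrArg Units.val e
  refine ⟨⟨_, hfix⟩, IsPrimitiveRoot.of_map_of_injective (f := (fixedField H).val) ?_
    (fixedField H).val.injective, rfl⟩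
  exact (cyc p).prim.map_of_injective (f := Units.coeHom Qb) Units.val_injective

theorem isTotallyComplex_fixedField [NumberField ↥(fixedField H)] {p : ℕ} [Fact p.Prime]
    (hμ : (cyc p).MuFix H) (hodd : p ≠ 2) : IsTotallyComplex ↥(fixedField H) := by
  obtain ⟨ζ, hζ, -⟩ := exists_primitiveRoot hμ
  exact isTotallyComplex_of_odd hζ hodd

/-- Good sets of rational primes exist. -/
theorem exists_sFull (hH : H ∈ LG) (S₀ : Finset Nat.Primes) :
    ∃ S, S₀ ⊆ S ∧ H ∈ LS S ∧ SFull H (placesOver H S) := by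
  classical
  have := numberField_fixedField hH
  obtain ⟨T, hT⟩ := PT.exists_mem_LS hH
  obtain ⟨B, -, hB⟩ := exists_isPrincipalOutside (K := ↥(fixedField H)) ∅
  choose pl hpl using prm_surjective (H := H) hH
  refine ⟨S₀ ∪ T ∪ B.image fun P => (pl P).1,
    Finset.subset_union_left.trans Finset.subset_union_left,
    PT.LS_mono (Finset.subset_union_right.trans Finset.subset_union_left) hT, fun v hv => ?_⟩
  have hsub : (B : Set (HeightOneSpectrum (𝓞 ↥(fixedField H)))) ⊆
      prm '' placesOver H (S₀ ∪ T ∪ B.image fun P => (pl P).1) := fun P hP =>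
    ⟨pl P, Finset.mem_union_right _ (Finset.mem_image.2 ⟨P, hP, rfl⟩), hpl P⟩
  have hout : ∀ u : Plc H, u ∉ placesOver H (S₀ ∪ T ∪ B.image fun P => (pl P).1) →
      prm u ∉ prm '' placesOver H (S₀ ∪ T ∪ B.image fun P => (pl P).1) := fun u hu => by
    rintro ⟨w, hw, e⟩
    exact hu (prm_injective hH e ▸ hw)
  obtain ⟨π, hπ1, hπ⟩ := (hB.mono hsub) (prm v) (hout v hv)
  refine ⟨(fixUEquiv H π : fixU H), (fixUEquiv H π).2, ?_, fun v' hv' hne => ?_⟩
  · show nP v ((π : ↥(fixedField H)) : Qb) = _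
    rw [nP_eq_zpow, hπ1, zpow_one]
    obtain ⟨N, hN, hn, hNH, hI⟩ := PT.mem_LS.1 hT
    have hvT : v.1 ∉ T := fun h => hv (Finset.mem_union_left _ (Finset.mem_union_right _ h))
    obtain ⟨k, hk⟩ := PT.exists_nq_zpow_of_le hN (hI v.1 hvT) hNH (fixUEquiv H π).2 v.2.rep
    have hk' : theta v = (((v.1 : Nat.Primes) : ℕ) : ℝ) ^ k := by
      rw [← hk]
      show theta v = nP v ((π : ↥(fixedField H)) : Qb)
      rw [nP_eq_zpow, hπ1, zpow_one]
    obtain ⟨y, hyr, hy⟩ := exists_natCast_ord_pos v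
    have hny := nP_natCast v
    rw [← hyr, nP_eq_zpow, hk', ← zpow_mul, ← zpow_neg_one] at hny
    have hr1 : (1 : ℝ) < (((v.1 : Nat.Primes) : ℕ) : ℝ) := by exact_mod_cast v.1.2.one_lt
    have hke := (zpow_right_strictMono₀ hr1).injective hny
    rcases Int.eq_one_or_neg_one_of_mul_eq_neg_one hke with h | h
    · rw [h, one_mul] at hke; omega
    · rw [hk', h, zpow_neg_one]
  · show nP v' ((π : ↥(fixedField H)) : Qb) = 1
    exact (nP_eq_one_iff v' π).2
      (hπ (prm v') (hout v' hv') fun e => hne (prm_injective hH e))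

/-- The Herbrand ratio of the `T`-units. -/
theorem hq_eT {p : ℕ} [Fact p.Prime] (hodd : p ≠ 2) (hH : H ∈ LG) (hμ : (cyc p).MuFix H)
    {T : Set (Plc H)} (hT : T.Finite) :
    FinHq (mulHom p (Additive (eT H T))) ∧
      hq (mulHom p (Additive (eT H T))) = (p : ℚ) ^ ((H.index / 2 + T.ncard : ℤ) - 1) := by
  classical
  have := numberField_fixedField hH
  obtain ⟨ζ, hζ, -⟩ := exists_primitiveRoot hμ
  have := isTotallyComplex_fixedField hμ hodd
  let i : sU (prm '' T) →* eT H T :=
    MonoidHom.mk' (fun x => ⟨((fixUEquiv H (x : (↥(fixedField H))ˣ) : fixU H) : Qbˣ),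
      (mem_eT_iff hH T _).2 x.2⟩) fun a b => Subtype.ext (by simp)
  have hi : Function.Bijective i := by
    refine ⟨fun a b h => Subtype.ext ((fixUEquiv H).injective (Subtype.ext
      (congrArg (fun z : eT H T => (z : Qbˣ)) h))), fun y => ?_⟩
    obtain ⟨x, hx⟩ := (fixUEquiv H).surjective ⟨(y : Qbˣ), (PT.mem_eT.1 y.2).1⟩
    have hx' : ((fixUEquiv H x : fixU H) : Qbˣ) = (y : Qbˣ) := congrArg Subtype.val hx
    exact ⟨⟨x, (mem_eT_iff hH T x).1 (by rw [hx']; exact y.2)⟩, Subtype.ext hx'⟩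
  let e : Additive (sU (prm '' T)) ≃+ Additive (eT H T) :=
    MulEquiv.toAdditive (MulEquiv.ofBijective i hi)
  have h := hq_sU hζ (hT.image (prm (H := H))).toFinset
  rw [Set.Finite.coe_toFinset, ← Set.ncard_eq_toFinset_card _ (hT.image prm),
    Set.ncard_image_of_injective _ (prm_injective hH)] at h
  refine ⟨(PT.hq_mulHom_congr p e).1 h.1, (PT.hq_mulHom_congr p e).2 ▸ h.2.trans ?_⟩
  rw [← zpow_natCast]
  congr 1
  have hr := rank_add_one (K := ↥(fixedField H))
  rw [PT.finrank_fixedField hH] at hr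
  push_cast
  omega

end Fermat.Agent.CFT.Bridge
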